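import Mathlib

/-!
# GATE-J / J1-FF (helper24): linear independence over `K(y)` from polynomial relations

`K ⊆ F` fields, `y : F` transcendental over `K`.  A finite family `b : ι → F` is linearly
independent over `K⟮y⟯` as soon as no relation `∑ p_i(y) b_i = 0` holds with polynomial
coefficients `p_i ∈ K[X]` not all divisible by `X`.  (Clear denominators, divide by the largest
common power of `y`.)  This is the only place where elements of `K(y)` are manipulated as
fractions; all later independence arguments (Stichtenoth 1.1.6, 1.1.15, 1.3.3) go through it.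
-/

set_option autoImplicit false

noncomputable section

open Polynomial IntermediateField

namespace Fermat.Agent.GJ.FF

variable {K F : Type*} [Field K] [Field F] [Algebra K F]

/-- `p(y) = p(0) + y * (p.divX)(y)`. -/
theorem aeval_eq_coeff_zero_add (y : F) (p : K[X]) :
    aeval y p = algebraMap K F (p.coeff 0) + y * aeval y p.divX := by
  have h := congrArg (aeval y) (Polynomial.divX_mul_X_add p)
  rw [map_add, map_mul, aeval_X, aeval_C] at h
  rw [← h]
  ring

/-- Elements of `K⟮y⟯` as fractions with nonzero denominator. -/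
theorem exists_aeval_div_of_mem_adjoin_simple {y : F} (c : K⟮y⟯) :
    ∃ r s : K[X], aeval y s ≠ 0 ∧ (c : F) * aeval y s = aeval y r := by
  by_cases hc : c = 0
  · exact ⟨0, 1, by simp, by simp [hc]⟩
  obtain ⟨r, s, hrs⟩ := (IntermediateField.mem_adjoin_simple_iff K (c : F)).mp c.2
  have hs : aeval y s ≠ 0 := by
    intro h0
    apply hc
    apply Subtype.ext
    rw [hrs, h0, div_zero]
    rfl
  exact ⟨r, s, hs, by rw [hrs, div_mul_cancel₀ _ hs]⟩

variable {ι : Type*} [Fintype ι]

/-- **Key lemma**: polynomial relations with a nonzero constant term somewhere are enough to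
test linear independence over `K⟮y⟯`. -/
theorem linearIndependent_adjoin_simple_of_aeval {y : F} (hy : Transcendental K y) (b : ι → F)
    (h : ∀ p : ι → K[X], (∃ i, (p i).coeff 0 ≠ 0) → ∑ i, aeval y (p i) * b i ≠ 0) :
    LinearIndependent K⟮y⟯ b := by
  classical
  rw [Fintype.linearIndependent_iff]
  intro g hg
  by_contra hne
  push Not at hne
  obtain ⟨i₀, hi₀⟩ := hne
  have hinj : Function.Injective (aeval (R := K) y) :=
    transcendental_iff_injective.mp hy
  choose r s hs hrs using fun i => exists_aeval_div_of_mem_adjoin_simple (K := K) (y := y) (g i)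
  have hs0 : ∀ i, s i ≠ 0 := fun i h0 => hs i (by rw [h0, map_zero])
  -- cleared coefficients
  set p : ι → K[X] := fun i => r i * ∏ j ∈ Finset.univ.erase i, s j with hp
  have hpS : ∀ i, aeval y (p i) = (g i : F) * aeval y (∏ j, s j) := by
    intro i
    rw [hp]
    simp only [map_mul]
    rw [← hrs i, ← Finset.mul_prod_erase Finset.univ s (Finset.mem_univ i)]
    simp only [map_mul]
    ring
  have hrel : ∑ i, aeval y (p i) * b i = 0 := by
    have : ∑ i, aeval y (p i) * b i = aeval y (∏ j, s j) * ∑ i, g i • b i := by
      rw [Finset.mul_sum]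
      refine Finset.sum_congr rfl fun i _ => ?_
      rw [hpS i, IntermediateField.smul_def, smul_eq_mul]
      ring
    rw [this, hg, mul_zero]
  have hp₀ : p i₀ ≠ 0 := by
    rw [hp]
    refine mul_ne_zero ?_ (Finset.prod_ne_zero_iff.mpr fun j _ => hs0 j)
    intro h0
    apply hi₀
    apply Subtype.ext
    have := hrs i₀
    rw [h0, map_zero] at this
    rcases mul_eq_zero.mp this with h1 | h1
    · exact h1
    · exact absurd h1 (hs i₀)
  -- the minimal trailing degree among the nonzero `p i`
  let T : Finset ι := Finset.univ.filter fun i => p i ≠ 0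
  have hT : T.Nonempty := ⟨i₀, by simp [T, hp₀]⟩
  obtain ⟨i₁, hi₁T, hmin⟩ := Finset.exists_min_image T (fun i => (p i).natTrailingDegree) hT
  set m := (p i₁).natTrailingDegree with hm
  have hi₁ : p i₁ ≠ 0 := by simpa [T] using hi₁T
  have hdvd : ∀ i, X ^ m ∣ p i := by
    intro i
    by_cases hi : p i = 0
    · rw [hi]; exact dvd_zero _
    rw [Polynomial.X_pow_dvd_iff]
    intro d hd
    apply Polynomial.coeff_eq_zero_of_lt_natTrailingDegree
    exact lt_of_lt_of_le hd (hmin i (by simp [T, hi]))
  choose q hq using hdvd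
  have hq₁ : (q i₁).coeff 0 ≠ 0 := by
    have h1 : (p i₁).coeff m = (q i₁).coeff 0 := by
      conv_lhs => rw [hq i₁]
      have h2 := Polynomial.coeff_X_pow_mul (q i₁) m 0
      rwa [zero_add] at h2
    rw [← h1, hm]
    exact (Polynomial.trailingCoeff_nonzero_iff_nonzero.mpr hi₁)
  have hy0 : y ≠ 0 := fun h0 => by
    apply hy
    rw [h0]
    exact isAlgebraic_zero
  apply h q ⟨i₁, hq₁⟩
  have hrel' : y ^ m * ∑ i, aeval y (q i) * b i = 0 := by
    rw [Finset.mul_sum, ← hrel]
    refine Finset.sum_congr rfl fun i _ => ?_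
    conv_rhs => rw [hq i]
    simp only [map_mul, map_pow, aeval_X]
    ring
  exact (mul_eq_zero.mp hrel').resolve_left (pow_ne_zero _ hy0)

end Fermat.Agent.GJ.FF
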