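import Mathlib
import Fermat.Prelude.Def_AlgebraicCurve_DivisorClassGroup
import Fermat.Agent.S24.Gen
import Fermat.Agent.GJ.FF.PolyIndep

/-!
# GATE-J / J1-FF (helper24): valuation rings of a function field are discrete; places exist

`K ⊆ F` fields, `F` a function field in one variable over `K` (`[IsGen K x]`: `x` transcendental,
`F / K(x)` finite).  No hypothesis on the characteristic, no separability.

* `isPrincipalIdealRing_of_contains` : a valuation subring `O ≠ ⊤` of `F` containing `K` is a
  principal ideal ring (Stichtenoth 1.1.6), hence defines a prelude `Place K F` (`placeOf`).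
* `exists_place_ord_pos` : every transcendental `y` has a zero (Stichtenoth 1.1.20).
* `transcendental_of_mem_nonunits`, `ord_eq_zero_of_isAlgebraic` : elements algebraic over `K`
  are units at every place.
-/

set_option autoImplicit false

noncomputable section

open Polynomial IntermediateField AlgebraicCurve

namespace Fermat.Agent.GJ.FF

open Fermat.Agent.S24

variable {K F : Type*} [Field K] [Field F] [Algebra K F]

section ValuationSubring

variable (O : ValuationSubring F) (hK : ∀ a : K, algebraMap K F a ∈ O)

include hK

theorem aeval_mem {y : F} (hy : y ∈ O) (p : K[X]) : aeval y p ∈ O := by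
  induction p using Polynomial.induction_on with
  | C a => rw [aeval_C]; exact hK a
  | add p q hp hq => rw [map_add]; exact O.add_mem _ _ hp hq
  | monomial n a _ =>
    rw [map_mul, aeval_C, map_pow, aeval_X]
    exact O.mul_mem _ _ (hK a) (O.pow_mem hy _)

theorem valuation_algebraMap {a : K} (ha : a ≠ 0) : O.valuation (algebraMap K F a) = 1 := by
  have h1 : O.valuation (algebraMap K F a) ≤ 1 := (O.valuation_le_one_iff _).mpr (hK a)
  have h2 : O.valuation (algebraMap K F a⁻¹) ≤ 1 := (O.valuation_le_one_iff _).mpr (hK a⁻¹)
  have hne : O.valuation (algebraMap K F a) ≠ 0 := by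
    rw [Valuation.ne_zero_iff]
    simpa using ha
  rw [map_inv₀, map_inv₀, inv_le_one₀ (zero_lt_iff.mpr hne)] at h2
  exact le_antisymm h1 h2

theorem valuation_aeval_le_one {y : F} (hy : y ∈ O) (p : K[X]) : O.valuation (aeval y p) ≤ 1 :=
  (O.valuation_le_one_iff _).mpr (aeval_mem O hK hy p)

theorem valuation_aeval_eq_one {y : F} (hy : y ∈ O.nonunits) {p : K[X]} (hp : p.coeff 0 ≠ 0) :
    O.valuation (aeval y p) = 1 := by
  have hy' : O.valuation y < 1 := (O.mem_nonunits_iff).mp hy
  have hyO : y ∈ O := (O.valuation_le_one_iff _).mp hy'.le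
  rw [aeval_eq_coeff_zero_add]
  have h1 : O.valuation (y * aeval y p.divX) < O.valuation (algebraMap K F (p.coeff 0)) := by
    rw [valuation_algebraMap O hK hp, map_mul]
    calc O.valuation y * O.valuation (aeval y p.divX) ≤ O.valuation y * 1 :=
          mul_le_mul_right (valuation_aeval_le_one O hK hyO _) _
      _ < 1 := by rwa [mul_one]
  rw [Valuation.map_add_eq_of_lt_left _ h1, valuation_algebraMap O hK hp]

theorem valuation_aeval_le_of_coeff_zero {y : F} (hy : y ∈ O) {p : K[X]} (hp : p.coeff 0 = 0) :
    O.valuation (aeval y p) ≤ O.valuation y := by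
  rw [aeval_eq_coeff_zero_add, hp, map_zero, zero_add, map_mul]
  calc O.valuation y * O.valuation (aeval y p.divX) ≤ O.valuation y * 1 :=
        mul_le_mul_right (valuation_aeval_le_one O hK hy _) _
    _ = O.valuation y := mul_one _

/-- A nonzero non-unit of a valuation ring containing `K` is transcendental over `K`. -/
theorem transcendental_of_mem_nonunits {z : F} (hz : z ∈ O.nonunits) (hz0 : z ≠ 0) :
    Transcendental K z := by
  intro halg
  obtain ⟨p, hp0, hpz⟩ := halg
  -- divide `p` by the largest power of `X`
  set m := p.natTrailingDegree with hm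
  have hdvd : X ^ m ∣ p := by
    rw [Polynomial.X_pow_dvd_iff]
    intro d hd
    exact Polynomial.coeff_eq_zero_of_lt_natTrailingDegree hd
  obtain ⟨q, hq⟩ := hdvd
  have hq0 : q.coeff 0 ≠ 0 := by
    have h1 : p.coeff m = q.coeff 0 := by
      conv_lhs => rw [hq]
      have h2 := Polynomial.coeff_X_pow_mul q m 0
      rwa [zero_add] at h2
    rw [← h1, hm]
    exact Polynomial.trailingCoeff_nonzero_iff_nonzero.mpr hp0
  have h3 : z ^ m * aeval z q = 0 := by
    rw [← hpz]
    conv_rhs => rw [hq]
    simp
  have h4 : aeval z q = 0 := (mul_eq_zero.mp h3).resolve_left (pow_ne_zero _ hz0)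
  have h5 := valuation_aeval_eq_one O hK hz hq0
  rw [h4, map_zero] at h5
  exact zero_ne_one h5

end ValuationSubring

section DVR

/-- Strict divisibility is well founded in a valuation ring of a function field that contains
the constants (Stichtenoth, Theorem 1.1.6). -/
theorem wfDvdMonoid_of_contains (x : F) [IsGen K x] (O : ValuationSubring F) (hK : ∀ a : K, algebraMap K F a ∈ O) :
    WfDvdMonoid O := by
  classical
  refine ⟨wellFounded_iff_isEmpty_descending_chain.mpr ⟨fun ⟨f, hf⟩ => ?_⟩⟩
  set v := O.valuation with hv
  -- basic facts on the chain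
  have hne : ∀ n, (f (n + 1) : F) ≠ 0 := fun n h0 => (hf n).1 (Subtype.ext h0)
  have hvne : ∀ n, v (f (n + 1) : F) ≠ 0 := fun n => (Valuation.ne_zero_iff _).mpr (hne n)
  have hstep : ∀ n, v (f n : F) < v (f (n + 1) : F) := by
    intro n
    obtain ⟨-, c, hc, hfc⟩ := hf n
    have hc' : v (c : F) < 1 := by
      have : c ∈ IsLocalRing.maximalIdeal O := by
        rwa [IsLocalRing.mem_maximalIdeal, mem_nonunits_iff]
      exact (O.valuation_lt_one_iff c).mp this
    have : (f n : F) = (f (n + 1) : F) * (c : F) := by
      rw [hfc]; rfl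
    rw [this, map_mul]
    calc v (f (n + 1) : F) * v (c : F) < v (f (n + 1) : F) * 1 := by
          exact (mul_lt_mul_iff_right₀ (zero_lt_iff.mpr (hvne n))).mpr hc'
      _ = _ := mul_one _
  have hmono : StrictMono fun n => v (f n : F) := strictMono_nat_of_lt_succ hstep
  have hle1 : ∀ n, v (f n : F) ≤ 1 := fun n => O.valuation_le_one (f n)
  have hlt1 : ∀ n, v (f n : F) < 1 := fun n => (hstep n).trans_le (hle1 _)
  -- the transcendental element
  set y : F := (f 1 : F) with hy
  have hy0 : y ≠ 0 := hne 0
  have hyN : y ∈ O.nonunits := (O.mem_nonunits_iff).mpr (hlt1 1)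
  have hyO : y ∈ O := (f 1).2
  have hytr : Transcendental K y := transcendental_of_mem_nonunits O hK hyN hy0
  have : IsGen K y := IsGen.of_transcendental x hytr
  set n := Module.finrank K⟮y⟯ F with hn
  let b : Fin (n + 1) → F := fun i => (f (i.val + 1) : F)
  have hb : LinearIndependent K⟮y⟯ b := by
    refine linearIndependent_adjoin_simple_of_aeval hytr b fun p hp => ?_
    -- the largest index with nonzero constant term
    let S : Finset (Fin (n + 1)) := Finset.univ.filter fun i => (p i).coeff 0 ≠ 0
    have hS : S.Nonempty := by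
      obtain ⟨i, hi⟩ := hp
      exact ⟨i, by simp [S, hi]⟩
    set j := S.max' hS with hj
    have hjS : (p j).coeff 0 ≠ 0 := by
      have := Finset.max'_mem S hS
      simpa [S] using this
    have hjmax : ∀ i, (p i).coeff 0 ≠ 0 → i ≤ j := fun i hi =>
      Finset.le_max' S i (by simp [S, hi])
    have hvj : v (aeval y (p j) * b j) = v (b j) := by
      rw [map_mul, valuation_aeval_eq_one O hK hyN hjS, one_mul]
    have hlt : ∀ i ∈ (Finset.univ : Finset (Fin (n + 1))) \ {j},
        v (aeval y (p i) * b i) < v (aeval y (p j) * b j) := by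
      intro i hi
      have hij : i ≠ j := by
        simpa using hi
      rw [hvj, map_mul]
      rcases lt_or_gt_of_ne hij with hlt | hgt
      · -- `i < j`
        calc v (aeval y (p i)) * v (b i) ≤ 1 * v (b i) :=
              mul_le_mul_left (valuation_aeval_le_one O hK hyO _) _
          _ = v (b i) := one_mul _
          _ < v (b j) := hmono (by simpa using hlt)
      · -- `j < i`: the constant term vanishes
        have hpi : (p i).coeff 0 = 0 := by
          by_contra h
          exact absurd (hjmax i h) (not_le.mpr hgt)
        have h1 : v (aeval y (p i)) ≤ v y := valuation_aeval_le_of_coeff_zero O hK hyO hpi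
        have h2 : v (b i) < 1 := hlt1 _
        have h3 : v y ≤ v (b j) := hmono.monotone (by omega : 1 ≤ j.val + 1)
        have hvy : 0 < v y := zero_lt_iff.mpr ((Valuation.ne_zero_iff _).mpr hy0)
        calc v (aeval y (p i)) * v (b i) ≤ v y * v (b i) := mul_le_mul_left h1 _
          _ < v y * 1 := (mul_lt_mul_iff_right₀ hvy).mpr h2
          _ = v y := mul_one _
          _ ≤ v (b j) := h3
    have hsum := Valuation.map_sum_eq_of_lt v (Finset.mem_univ j) hlt
    intro h0
    rw [h0, map_zero, hvj] at hsum
    exact hvne _ hsum.symm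
  have := hb.fintype_card_le_finrank
  rw [Fintype.card_fin] at this
  omega

/-- A valuation subring of a function field containing the constants is a PID. -/
theorem isPrincipalIdealRing_of_contains (x : F) [IsGen K x] (O : ValuationSubring F)
    (hK : ∀ a : K, algebraMap K F a ∈ O) : IsPrincipalIdealRing O :=
  ((IsBezout.TFAE (R := O)).out 3 1).mp (wfDvdMonoid_of_contains x O hK)

/-- The place attached to a nontrivial valuation subring containing the constants. -/
def placeOf (x : F) [IsGen K x] (O : ValuationSubring F) (hK : ∀ a : K, algebraMap K F a ∈ O) (hO : O ≠ ⊤) :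
    Place K F where
  toValuationSubring := O
  algebraMap_mem' := hK
  ne_top' := hO
  isPrincipalIdealRing' := isPrincipalIdealRing_of_contains x O hK

@[simp]
theorem placeOf_toValuationSubring (x : F) [IsGen K x] (O : ValuationSubring F)
    (hK : ∀ a : K, algebraMap K F a ∈ O) (hO : O ≠ ⊤) :
    (placeOf x O hK hO).toValuationSubring = O := rfl

end DVR

section Dictionary

/-- positive order = nonzero non-unit of the valuation ring -/
theorem ord_pos_iff_mem_nonunits (v : Place K F) {f : F} (hf : f ≠ 0) :
    0 < v.ord f ↔ f ∈ v.toValuationSubring.nonunits := by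
  rw [PlaceB.ord_pos_iff v hf]
  constructor
  · intro h
    have hmem : f ∈ v.toValuationSubring :=
      (PlaceB.adicValuation_le_one_iff v f).mp h.le
    have hnu : ¬ IsUnit (⟨f, hmem⟩ : v.toValuationSubring) := fun hu =>
      h.ne ((v.adicValuation_coe_eq_one_iff ⟨f, hmem⟩).mpr hu)
    have : (⟨f, hmem⟩ : v.toValuationSubring) ∈ IsLocalRing.maximalIdeal _ := by
      rwa [IsLocalRing.mem_maximalIdeal, mem_nonunits_iff]
    exact ValuationSubring.coe_mem_nonunits_iff.mpr this
  · intro h
    have hlt : v.toValuationSubring.valuation f < 1 := (v.toValuationSubring.mem_nonunits_iff).mp h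
    have hmem : f ∈ v.toValuationSubring :=
      (v.toValuationSubring.valuation_le_one_iff _).mp hlt.le
    have hmax : (⟨f, hmem⟩ : v.toValuationSubring) ∈ IsLocalRing.maximalIdeal _ :=
      ValuationSubring.coe_mem_nonunits_iff.mp h
    have hnu : ¬ IsUnit (⟨f, hmem⟩ : v.toValuationSubring) := by
      rwa [IsLocalRing.mem_maximalIdeal, mem_nonunits_iff] at hmax
    refine lt_of_le_of_ne ((PlaceB.adicValuation_le_one_iff v f).mpr hmem) fun h1 => hnu ?_
    exact (v.adicValuation_coe_eq_one_iff ⟨f, hmem⟩).mp h1

/-- an element with a zero at some place is transcendental over the constants -/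
theorem transcendental_of_ord_pos (v : Place K F) {f : F} (h : 0 < v.ord f) :
    Transcendental K f := by
  have hf : f ≠ 0 := by
    rintro rfl
    simp at h
  exact transcendental_of_mem_nonunits v.toValuationSubring v.algebraMap_mem'
    ((ord_pos_iff_mem_nonunits v hf).mp h) hf

/-- elements algebraic over the constants have order zero everywhere -/
theorem ord_eq_zero_of_isAlgebraic (v : Place K F) {f : F} (hf : IsAlgebraic K f) :
    v.ord f = 0 := by
  rcases eq_or_ne f 0 with rfl | hf0
  · simp
  have h1 : ¬ 0 < v.ord f := fun h => transcendental_of_ord_pos v h hf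
  have h2 : ¬ 0 < v.ord f⁻¹ := fun h => transcendental_of_ord_pos v h hf.inv
  rw [v.ord_inv] at h2
  omega

end Dictionary

section Existence

/-- **Existence of zeros** (Stichtenoth 1.1.20): a transcendental element has a zero. -/
theorem exists_place_ord_pos (x : F) [IsGen K x] {y : F} (hy : Transcendental K y) :
    ∃ v : Place K F, 0 < v.ord y := by
  classical
  have hy0 : y ≠ 0 := fun h0 => hy (h0 ▸ isAlgebraic_zero)
  let A : Subring F := (Algebra.adjoin K {y}).toSubring
  have hyA : y ∈ A := Algebra.self_mem_adjoin_singleton K y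
  let yA : A := ⟨y, hyA⟩
  let I : Ideal A := Ideal.span {yA}
  have hI : I ≠ ⊤ := by
    intro htop
    have h1 : (1 : A) ∈ I := htop ▸ Submodule.mem_top
    obtain ⟨c, hc⟩ := Ideal.mem_span_singleton'.mp h1
    have hcF : (c : F) * y = 1 := by
      have := congrArg (Subtype.val) hc
      simpa [yA] using this
    have hcmem : (c : F) ∈ Algebra.adjoin K {y} := c.2
    rw [Algebra.adjoin_singleton_eq_range_aeval] at hcmem
    obtain ⟨p, hp⟩ := hcmem
    have hinj : Function.Injective (aeval (R := K) y) := transcendental_iff_injective.mp hy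
    have h2 : aeval y (p * X) = aeval y (1 : K[X]) := by
      rw [map_mul, aeval_X, map_one]
      have : (aeval y) p = (c : F) := hp
      rw [this, hcF]
    have h3 : p * X = 1 := hinj h2
    exact Polynomial.not_isUnit_X (IsUnit.of_mul_eq_one p (by rw [mul_comm]; exact h3))
  obtain ⟨B, hAB, himg⟩ := Ideal.image_subset_nonunits_valuationSubring I hI
  have hyB : y ∈ B.nonunits := himg ⟨yA, Ideal.subset_span rfl, rfl⟩
  have hK : ∀ a : K, algebraMap K F a ∈ B := fun a =>
    hAB ((Algebra.adjoin K {y}).algebraMap_mem a)
  have hB : B ≠ ⊤ := by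
    rintro rfl
    rcases (ValuationSubring.mem_nonunits_iff_or _).mp hyB with h | h
    · exact hy0 h
    · exact h (ValuationSubring.mem_top _)
  exact ⟨placeOf x B hK hB, (ord_pos_iff_mem_nonunits _ hy0).mpr hyB⟩

theorem nonempty_place (x : F) [IsGen K x] : Nonempty (Place K F) :=
  let ⟨v, _⟩ := exists_place_ord_pos x (IsGen.transcendental (K := K) (x := x))
  ⟨v⟩

/-- a transcendental element has a pole -/
theorem exists_place_ord_neg (x : F) [IsGen K x] {y : F} (hy : Transcendental K y) :
    ∃ v : Place K F, v.ord y < 0 := by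
  have hyi : Transcendental K y⁻¹ := fun h => hy (by simpa using h.inv)
  obtain ⟨v, hv⟩ := exists_place_ord_pos x hyi
  refine ⟨v, ?_⟩
  rw [v.ord_inv] at hv
  omega

/-- an element without poles is algebraic over the constants -/
theorem isAlgebraic_of_forall_ord_nonneg (x : F) [IsGen K x] {f : F} (h : ∀ v : Place K F, 0 ≤ v.ord f) :
    IsAlgebraic K f := by
  by_contra hf
  obtain ⟨v, hv⟩ := exists_place_ord_neg x (K := K) hf
  exact absurd (h v) (not_le.mpr hv)

end Existence

end Fermat.Agent.GJ.FF
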