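import Mathlib
import Fermat.Agent.GJ.FF.ValRing
import Fermat.Agent.RR_helper45.Finite

/-!
# GATE-J / J1-FF (helper24): residue fields of places are finite over the constants

Stichtenoth 1.1.15, characteristic free: if `y` has a zero at the place `v`, then
`deg v ≤ [F : K(y)]`.  Hence `FiniteResidues K F` for every function field in one variable.
-/

set_option autoImplicit false

noncomputable section

open Polynomial IntermediateField AlgebraicCurve

namespace Fermat.Agent.GJ.FF

open Fermat.Agent.S24 Fermat.Agent.RRh45

variable {K F : Type*} [Field K] [Field F] [Algebra K F]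

/-- polynomials in an element of the valuation ring stay in the valuation ring -/
theorem aeval_mem_place (v : Place K F) {y : F} (hy : y ∈ v.toValuationSubring) (p : K[X]) :
    aeval y p ∈ v.toValuationSubring :=
  aeval_mem v.toValuationSubring v.algebraMap_mem' hy p

theorem mem_of_ord_pos (v : Place K F) {y : F} (hy : 0 < v.ord y) : y ∈ v.toValuationSubring := by
  have hy0 : y ≠ 0 := by rintro rfl; simp at hy
  exact (PlaceB.ord_nonneg_iff v hy0).mp hy.le

/-- the residue of `p(y)` at a zero of `y` is the constant term of `p` -/
theorem residue_aeval (v : Place K F) {y : F} (hy : 0 < v.ord y) (p : K[X]) :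
    IsLocalRing.residue v.toValuationSubring
        ⟨aeval y p, aeval_mem_place v (mem_of_ord_pos v hy) p⟩ =
      algebraMap K v.ResidueField (p.coeff 0) := by
  have hy0 : y ≠ 0 := by rintro rfl; simp at hy
  have hyO := mem_of_ord_pos v hy
  have hsplit : (⟨aeval y p, aeval_mem_place v hyO p⟩ : v.toValuationSubring) =
      algebraMap K v.toValuationSubring (p.coeff 0) +
        ⟨y, hyO⟩ * ⟨aeval y p.divX, aeval_mem_place v hyO p.divX⟩ := by
    ext
    push_cast
    rw [v.coe_algebraMap]
    exact aeval_eq_coeff_zero_add y p
  have hmax : (⟨y, hyO⟩ : v.toValuationSubring) ∈ IsLocalRing.maximalIdeal v.toValuationSubring :=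
    ValuationSubring.coe_mem_nonunits_iff.mp ((ord_pos_iff_mem_nonunits v hy0).mp hy)
  rw [hsplit, map_add, map_mul, (IsLocalRing.residue_eq_zero_iff _).mpr hmax, zero_mul, add_zero]
  rfl

/-- **Stichtenoth 1.1.15**: lifts of `K`-independent residue classes are `K(y)`-independent. -/
theorem linearIndependent_of_residue (v : Place K F) {y : F} (hy : 0 < v.ord y)
    {ι : Type*} [Fintype ι] (z : ι → v.toValuationSubring)
    (hz : LinearIndependent K fun i => IsLocalRing.residue v.toValuationSubring (z i)) :
    LinearIndependent K⟮y⟯ fun i => ((z i : v.toValuationSubring) : F) := by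
  classical
  have hytr := transcendental_of_ord_pos v hy
  have hyO := mem_of_ord_pos v hy
  refine linearIndependent_adjoin_simple_of_aeval hytr _ fun p hp h0 => ?_
  obtain ⟨i₀, hi₀⟩ := hp
  -- the relation inside the valuation ring
  have hrel : ∑ i, (⟨aeval y (p i), aeval_mem_place v hyO (p i)⟩ : v.toValuationSubring) * z i
      = 0 := by
    ext
    simpa using h0
  have hres := congrArg (IsLocalRing.residue v.toValuationSubring) hrel
  rw [map_sum, map_zero] at hres
  have hres' : ∑ i, (p i).coeff 0 • IsLocalRing.residue v.toValuationSubring (z i) = 0 := by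
    rw [← hres]
    refine Finset.sum_congr rfl fun i _ => ?_
    rw [map_mul, residue_aeval v hy (p i), Algebra.smul_def]
  exact hi₀ (Fintype.linearIndependent_iff.mp hz _ hres' i₀)

/-- the degree of a zero of `y` is at most `[F : K(y)]` -/
theorem finite_residueField_and_deg_le (x : F) [IsGen K x] (v : Place K F) {y : F}
    (hy : 0 < v.ord y) :
    Module.Finite K v.ResidueField ∧ v.deg ≤ Module.finrank K⟮y⟯ F := by
  classical
  have hytr := transcendental_of_ord_pos v hy
  have : IsGen K y := IsGen.of_transcendental x hytr
  have hbound : ∀ s : Finset v.ResidueField,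
      (LinearIndependent K fun i : s => (i : v.ResidueField)) →
        s.card ≤ Module.finrank K⟮y⟯ F := by
    intro s hs
    have hsurj := IsLocalRing.residue_surjective (R := v.toValuationSubring)
    choose lift hlift using hsurj
    let z : s → v.toValuationSubring := fun i => lift (i : v.ResidueField)
    have hz : LinearIndependent K fun i => IsLocalRing.residue v.toValuationSubring (z i) := by
      have : (fun i : s => IsLocalRing.residue v.toValuationSubring (z i)) =
          fun i : s => (i : v.ResidueField) := by
        funext i
        exact hlift _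
      rw [this]
      exact hs
    have := (linearIndependent_of_residue v hy z hz).fintype_card_le_finrank
    simpa using this
  have hrank : Module.rank K v.ResidueField ≤ (Module.finrank K⟮y⟯ F : ℕ) := rank_le hbound
  have hfin : Module.Finite K v.ResidueField :=
    Module.rank_lt_aleph0_iff.mp (hrank.trans_lt (Cardinal.natCast_lt_aleph0))
  exact ⟨hfin, Module.finrank_le_of_rank_le hrank⟩

/-- every function field in one variable has finite residue fields -/
theorem finiteResidues (x : F) [IsGen K x] : FiniteResidues K F :=
  ⟨fun v => (finite_residueField_and_deg_le x v (y := unif v) (by rw [ord_unif]; norm_num)).1⟩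

theorem deg_le_finrank (x : F) [IsGen K x] (v : Place K F) {y : F} (hy : 0 < v.ord y) :
    v.deg ≤ Module.finrank K⟮y⟯ F :=
  (finite_residueField_and_deg_le x v hy).2

end Fermat.Agent.GJ.FF
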