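import Fermat.Agent.GJ.FF.PrincipalOf
import Fermat.Agent.GJ.FF.ValRing
import Fermat.Agent.GJ.FF.Residue

/-!
# GATE-J / J1-FF: `HasPrincipalDivisors K F` for every function field in one variable, any
characteristic (helper30; = helper24's (FF-A,B,C) fed into `PrincipalOf.hasPrincipalDivisors_of`)

`x : F` with `[IsGen K x]` (`x` transcendental over `K`, `F / K(x)` finite).  No separability, no
hypothesis on `K`.
-/

set_option autoImplicit false

noncomputable section

open AlgebraicCurve IntermediateField

namespace Fermat.Agent.GJ.FF.PrincipalOf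

open Fermat.Agent.S24 Fermat.Agent.RRh45

variable {K F : Type*} [Field K] [Field F] [Algebra K F]

/-- The hypothesis bundle of `PrincipalOf` holds in every function field in one variable. -/
theorem hyp_of_isGen (x : F) [IsGen K x] : Hyp K F :=
  ⟨fun _ hy => (IsGen.of_transcendental x hy).finite,
    fun _ hy => Fermat.Agent.GJ.FF.exists_place_ord_neg x hy⟩

/-- **Principal divisors have degree zero** in every function field in one variable, in any
characteristic. -/
theorem hasPrincipalDivisors_gen (x : F) [IsGen K x] : HasPrincipalDivisors K F := by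
  have := Fermat.Agent.GJ.FF.finiteResidues (K := K) x
  exact hasPrincipalDivisors_of_hyp (hyp_of_isGen x)

/-- The set of zeros and poles of any element is finite. -/
theorem finite_support_ord_gen (x : F) [IsGen K x] (f : F) :
    {v : Place K F | v.ord f ≠ 0}.Finite := by
  have := Fermat.Agent.GJ.FF.finiteResidues (K := K) x
  exact finite_support_ord (hyp_of_isGen x).fd f

/-- **`deg (y)_∞ = [F : K(y)]`**, for any divisor with the values of the pole divisor. -/
theorem degree_eq_finrank_of_poles (x : F) [IsGen K x] {y : F} (hy : Transcendental K y)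
    (D : Divisor K F) (hD : ∀ v : Place K F, D v = max (-(v.ord y)) 0) :
    Divisor.degree D = (Module.finrank K⟮y⟯ F : ℤ) := by
  have := Fermat.Agent.GJ.FF.finiteResidues (K := K) x
  have H := hyp_of_isGen (K := K) x
  have : D = poleDivisor H y := by
    ext v
    rw [hD v, poleDivisor_apply]
  rw [this]
  exact degree_poleDivisor_eq_finrank H y hy

/-- **`deg (y)_0 = [F : K(y)]`**, for any divisor with the values of the zero divisor. -/
theorem degree_eq_finrank_of_zeros (x : F) [IsGen K x] {y : F} (hy : Transcendental K y)
    (D : Divisor K F) (hD : ∀ v : Place K F, D v = max (v.ord y) 0) :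
    Divisor.degree D = (Module.finrank K⟮y⟯ F : ℤ) := by
  have := Fermat.Agent.GJ.FF.finiteResidues (K := K) x
  have H := hyp_of_isGen (K := K) x
  have hy0 : y ≠ 0 := fun h => hy (h ▸ isAlgebraic_zero)
  have : D = zeroDivisor H y := by
    ext v
    rw [hD v, zeroDivisor_apply]
  rw [this, degree_zeroDivisor_eq H y hy0]
  exact degree_poleDivisor_eq_finrank H y hy

/-- Elements without poles are algebraic over `K`; `L(0)` is finite-dimensional. -/
theorem finite_L_zero_gen (x : F) [IsGen K x] :
    Module.Finite K (riemannRochSpace (0 : Divisor K F)) := by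
  have := Fermat.Agent.GJ.FF.finiteResidues (K := K) x
  obtain ⟨v₀⟩ := Fermat.Agent.GJ.FF.nonempty_place (K := K) x
  exact finite_L_zero (hyp_of_isGen x) v₀

end Fermat.Agent.GJ.FF.PrincipalOf
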