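/-
GATE-J / J1-FF, part (FF-F) (helper24): the char-free function-field package instantiated at the
special-fibre field `F̃_N = modularFunctionFieldFullC k N`, WITHOUT the reduction hypothesis `h`
(`ReductionInputsModL`): for any field `k` receiving a ring homomorphism from a valuation subring
of `ℚ̄` (e.g. the residue field), `F̃_N` has finite residue fields, at least one place, principal
divisors of degree zero, finitely many zeros and poles, and (for `k` algebraically closed) its
only functions without zeros and poles — indeed without poles — are the constants.

Inputs: helper18's `FibreCurve.isGen_jFib` (h-free generator), helper30's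
`PrincipalOf.hasPrincipalDivisors_gen`, and `GJ/FF/{ValRing,Residue}.lean`.
-/
import Fermat.Agent.GJ.FF.PrincipalGen
import Fermat.Agent.GJ.J1.FibreFinal
import Fermat.Agent.GJ.J1.ResidueAlgClosed

set_option autoImplicit false
set_option linter.unusedSectionVars false

noncomputable section

open AlgebraicCurve IntermediateField ModularCurve

namespace Fermat.Agent.GJ.FF.Fibre

open Fermat.Agent.S24 Fermat.Agent.GJ.FibreCurve

section Generic

variable {K F : Type*} [Field K] [Field F] [Algebra K F]

/-- over an algebraically closed constant field, an algebraic element is a constant -/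
theorem exists_const_of_isAlgebraic [IsAlgClosed K] {f : F} (hf : IsAlgebraic K f) :
    ∃ c : K, f = algebraMap K F c := by
  have hint : IsIntegral K f := hf.isIntegral
  have hdeg : (minpoly K f).degree = 1 :=
    IsAlgClosed.degree_eq_one_of_irreducible K (minpoly.irreducible hint)
  obtain ⟨c, hc⟩ := minpoly.mem_range_of_degree_eq_one K f hdeg
  exact ⟨c, hc.symm⟩

/-- **functions without poles are constant** (char-free; `K` algebraically closed) -/
theorem exists_const_of_forall_ord_nonneg [IsAlgClosed K] (x : F) [IsGen K x] {f : F}
    (h0 : ∀ v : Place K F, 0 ≤ v.ord f) : ∃ c : K, f = algebraMap K F c :=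
  exists_const_of_isAlgebraic (isAlgebraic_of_forall_ord_nonneg x h0)

/-- functions without zeros and poles are constant (char-free; `K` algebraically closed; no
`HasPrincipalDivisors`/`Nonempty` hypotheses) -/
theorem exists_const_of_forall_ord_eq_zero' [IsAlgClosed K] (x : F) [IsGen K x] {f : F}
    (h0 : ∀ v : Place K F, v.ord f = 0) : ∃ c : K, f = algebraMap K F c :=
  exists_const_of_forall_ord_nonneg x fun v => (h0 v).ge

end Generic

section Fibre

variable {k : Type*} [Field k] (N : ℕ) [NeZero N] (A : ValuationSubring Kbar) (π : A →+* k)

include A π

/-- **(FF-F)** the special-fibre field has finite residue fields at all places (h-free) -/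
theorem finiteResidues_fibre : RRh45.FiniteResidues k (modularFunctionFieldFullC k N) :=
  haveI := isGen_jFib (k := k) N A π
  finiteResidues (K := k) (jFib k N)

/-- **(FF-F)** the special-fibre field has a place (h-free) -/
theorem nonempty_place_fibre' : Nonempty (Place k (modularFunctionFieldFullC k N)) :=
  haveI := isGen_jFib (k := k) N A π
  nonempty_place (K := k) (jFib k N)

/-- **(FF-F)** principal divisors of the special-fibre field have degree zero (h-free, any `k`) -/
theorem hasPrincipalDivisors_fibre' : HasPrincipalDivisors k (modularFunctionFieldFullC k N) :=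
  haveI := isGen_jFib (k := k) N A π
  PrincipalOf.hasPrincipalDivisors_gen (jFib k N)

/-- **(FF-F)** every function on the special fibre has finitely many zeros and poles (h-free) -/
theorem finite_support_ord_fibre (f : modularFunctionFieldFullC k N) :
    {v : Place k (modularFunctionFieldFullC k N) | v.ord f ≠ 0}.Finite :=
  haveI := isGen_jFib (k := k) N A π
  PrincipalOf.finite_support_ord_gen (jFib k N) f

/-- **(FF-F)** every transcendental function on the special fibre has a zero and a pole -/
theorem exists_place_ord_pos_fibre {y : modularFunctionFieldFullC k N}
    (hy : Transcendental k y) : ∃ v : Place k (modularFunctionFieldFullC k N), 0 < v.ord y :=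
  haveI := isGen_jFib (k := k) N A π
  exists_place_ord_pos (jFib k N) hy

theorem exists_place_ord_neg_fibre {y : modularFunctionFieldFullC k N}
    (hy : Transcendental k y) : ∃ v : Place k (modularFunctionFieldFullC k N), v.ord y < 0 :=
  haveI := isGen_jFib (k := k) N A π
  exists_place_ord_neg (jFib k N) hy

/-- **(Hc~), h-free**: functions on the special fibre without poles are constant -/
theorem exists_const_fibre_of_ord_nonneg [IsAlgClosed k] {f : modularFunctionFieldFullC k N}
    (h0 : ∀ Q : Place k (modularFunctionFieldFullC k N), 0 ≤ Q.ord f) :
    ∃ c : k, f = algebraMap k (modularFunctionFieldFullC k N) c :=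
  haveI := isGen_jFib (k := k) N A π
  exists_const_of_forall_ord_nonneg (jFib k N) h0

end Fibre

section Residue

variable (N : ℕ) [NeZero N] (A : ValuationSubring Kbar)

/-- **`hconstk`, h-free**: exactly the hypothesis `hconstk` of `GJ/S18/Front.lean` /
`hconst` of `GJ/J1/S18Top.lean`, for the residue field of `A`. -/
theorem hconstk_residueField (g : modularFunctionFieldFullC (IsLocalRing.ResidueField A) N)
    (_hg : g ≠ 0)
    (h0 : ∀ Q : Place (IsLocalRing.ResidueField A)
      (modularFunctionFieldFullC (IsLocalRing.ResidueField A) N), Q.ord g = 0) :
    ∃ c : IsLocalRing.ResidueField A,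
      g = algebraMap (IsLocalRing.ResidueField A)
        (modularFunctionFieldFullC (IsLocalRing.ResidueField A) N) c :=
  exists_const_fibre_of_ord_nonneg (k := IsLocalRing.ResidueField A) N A (IsLocalRing.residue A)
    fun Q => (h0 Q).ge

/-- **`hPD` for the residue field, h-free** -/
theorem hasPrincipalDivisors_residueField :
    HasPrincipalDivisors (IsLocalRing.ResidueField A)
      (modularFunctionFieldFullC (IsLocalRing.ResidueField A) N) :=
  hasPrincipalDivisors_fibre' (k := IsLocalRing.ResidueField A) N A (IsLocalRing.residue A)

end Residue

end Fermat.Agent.GJ.FF.Fibre
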