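import Mathlib
import Fermat.Prelude.Def_AlgebraicCurve_Repartitions
import Fermat.Agent.RR.BoundFamily
import Fermat.Agent.RR_helper45.Finite
import Fermat.Agent.RR_helper67.WeakApprox

/-!
# GATE-J / J1-FF (D+E): `HasPrincipalDivisors` in any characteristic

Owner: helper30.  For a field extension `F / K` in the prelude `Place`/`Divisor` API with finite
residue fields, such that `F / K(y)` is finite for every transcendental `y` and every
transcendental `y` has a pole, principal divisors exist and have degree `0`
(Stichtenoth 1.3.3 + 1.4.11; no separability, no norms, no integral closures).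

Inputs: helper66's `Bound.exists_indep_family` (independence at finitely many places),
helper67's weak approximation, helper45's `finite_of_le` (`l(D) ≤ l(D') + deg D - deg D'`).
-/

set_option autoImplicit false

noncomputable section

open AlgebraicCurve WithZero IntermediateField

namespace Fermat.Agent.GJ.FF.PrincipalOf

open Fermat.Agent.RRh45 Fermat.Agent.RR.Bound

variable {K F : Type*} [Field K] [Field F] [Algebra K F]

/-! ### Algebraic elements have no zeros and no poles -/

theorem mem_of_isAlgebraic (v : Place K F) {f : F} (hf : IsAlgebraic K f) :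
    f ∈ v.toValuationSubring := by
  have hint : IsIntegral K f := hf.isIntegral
  have hint' : IsIntegral v.toValuationSubring f := hint.tower_top
  obtain ⟨x, hx⟩ := IsIntegrallyClosed.isIntegral_iff.mp hint'
  rw [← hx]
  exact x.2

theorem ord_eq_zero_of_isAlgebraic (v : Place K F) {f : F} (hf : IsAlgebraic K f) (hf0 : f ≠ 0) :
    v.ord f = 0 := by
  have h1 : Vle v f 0 := Vle.of_mem (mem_of_isAlgebraic v hf)
  have h2 : Vle v f⁻¹ 0 := Vle.of_mem (mem_of_isAlgebraic v hf.inv)
  rw [Vle.iff_ord] at h1 h2
  rcases h1 with h1 | h1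
  · exact absurd h1 hf0
  rcases h2 with h2 | h2
  · exact absurd h2 (inv_ne_zero hf0)
  rw [Place.ord_inv] at h2
  omega

/-- Weak approximation (helper67). -/
theorem weakApprox' : WeakApprox K F := fun S y n =>
  Fermat.Agent.RRh67.exists_approx S y n

/-! ### (FF-D) independence at finitely many zeros bounds `∑ e_v deg v` by `[F : K(y)]` -/

section Bound

open scoped IntermediateField.algebraAdjoinAdjoin

/-- helper66's family is linearly independent over `K(y)`. -/
theorem linearIndependent_adjoin_of_family {n : ℕ} (y : F) (u : Fin n → F)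
    (hind : ∀ (M : ℕ) (c : ℕ → Fin n → K),
      (∑ m ∈ Finset.range M, y ^ m * ∑ j, c m j • u j) = 0 → ∀ m < M, ∀ j, c m j = 0) :
    LinearIndependent K⟮y⟯ u := by
  classical
  have hR : LinearIndependent (Algebra.adjoin K {y}) u := by
    rw [Fintype.linearIndependent_iff]
    intro g hg j
    have hmem : ∀ j, ∃ P : Polynomial K, Polynomial.aeval y P = (g j : F) := by
      intro j
      have h : ((g j : F)) ∈ (Polynomial.aeval (R := K) y).range := by
        rw [← Algebra.adjoin_singleton_eq_range_aeval]
        exact (g j).2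
      exact h
    choose P hP using hmem
    set M : ℕ := (Finset.univ.sup fun j => (P j).natDegree) + 1 with hM
    have hdeg : ∀ j, (P j).natDegree < M := fun j =>
      Nat.lt_succ_of_le (Finset.le_sup (f := fun j => (P j).natDegree) (Finset.mem_univ j))
    have hrel : (∑ m ∈ Finset.range M, y ^ m * ∑ j, (fun m j => (P j).coeff m) m j • u j) = 0 := by
      have h1 : ∀ j, (g j : F) = ∑ m ∈ Finset.range M, (P j).coeff m • y ^ m := fun j => by
        rw [← hP j, Polynomial.aeval_eq_sum_range' (hdeg j)]
      have h2 : ∑ j, (g j : F) * u j = 0 := by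
        simpa [Algebra.smul_def, Subalgebra.smul_def] using hg
      rw [← h2]
      simp only [h1, Finset.sum_mul, Finset.mul_sum]
      rw [Finset.sum_comm]
      refine Finset.sum_congr rfl fun j _ => Finset.sum_congr rfl fun m _ => ?_
      simp only [Algebra.smul_def]
      ring
    have hz := hind M (fun m j => (P j).coeff m) hrel
    have hP0 : P j = 0 := by
      ext m
      rw [Polynomial.coeff_zero]
      by_cases hm : m < M
      · exact hz m hm j
      · exact Polynomial.coeff_eq_zero_of_natDegree_lt (lt_of_lt_of_le (hdeg j) (not_lt.mp hm))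
    apply Subtype.ext
    rw [← hP j, hP0, map_zero]
    rfl
  exact (LinearIndependent.iff_fractionRing (Algebra.adjoin K {y}) K⟮y⟯).mp hR

/-- **(FF-D)**: for finitely many places `v ∈ S` with `ord_v y ≥ e v`,
`∑_{v ∈ S} e v · deg v ≤ [F : K(y)]`. -/
theorem sum_mul_deg_le_finrank [FiniteResidues K F] (y : F) (hy0 : y ≠ 0)
    [FiniteDimensional K⟮y⟯ F] (S : Finset (Place K F)) (e : Place K F → ℕ)
    (he : ∀ v ∈ S, Vle v y (-(e v : ℤ))) :
    ∑ v ∈ S, e v * v.deg ≤ Module.finrank K⟮y⟯ F := by
  classical
  obtain ⟨u, -, hind⟩ := exists_indep_family weakApprox' S (fun v _ => inferInstance) e y hy0 he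
  have hK := linearIndependent_adjoin_of_family y u hind
  simpa using hK.fintype_card_le_finrank

end Bound

/-! ### Finiteness of zeros and poles -/

section Finiteness

variable [FiniteResidues K F]

theorem finite_zeros (y : F) (hy0 : y ≠ 0) [FiniteDimensional K⟮y⟯ F] :
    {v : Place K F | 0 < v.ord y}.Finite := by
  classical
  by_contra hinf
  have hinf' : {v : Place K F | 0 < v.ord y}.Infinite := hinf
  obtain ⟨S, hS, hcard⟩ := hinf'.exists_subset_card_eq (Module.finrank K⟮y⟯ F + 1)
  have h := sum_mul_deg_le_finrank y hy0 S (fun _ => 1) (fun v hv => by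
    rw [Vle.iff_ord]
    right
    have : 0 < v.ord y := hS hv
    simp only [Nat.cast_one, neg_neg]
    omega)
  have h2 : S.card ≤ ∑ v ∈ S, 1 * v.deg := by
    rw [Finset.card_eq_sum_ones]
    refine Finset.sum_le_sum fun v _ => ?_
    have := deg_pos v
    omega
  omega

omit [FiniteResidues K F] in
theorem transcendental_inv {y : F} (hy : Transcendental K y) : Transcendental K y⁻¹ := by
  intro h
  apply hy
  have := h.inv
  rwa [inv_inv] at this

/-- the support of `v ↦ ord_v f` is finite. -/
theorem finite_support_ord (hfd : ∀ y : F, Transcendental K y → FiniteDimensional K⟮y⟯ F)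
    (f : F) : {v : Place K F | v.ord f ≠ 0}.Finite := by
  by_cases hf0 : f = 0
  · subst hf0
    simp
  by_cases halg : IsAlgebraic K f
  · have : {v : Place K F | v.ord f ≠ 0} = ∅ := by
      ext v
      simp [ord_eq_zero_of_isAlgebraic v halg hf0]
    rw [this]
    exact Set.finite_empty
  · have htr : Transcendental K f := halg
    have h1 : FiniteDimensional K⟮f⟯ F := hfd f htr
    have h2 : FiniteDimensional K⟮f⁻¹⟯ F := hfd f⁻¹ (transcendental_inv htr)
    have hz := finite_zeros (K := K) f hf0
    have hp := finite_zeros (K := K) f⁻¹ (inv_ne_zero hf0)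
    refine (hz.union hp).subset ?_
    intro v hv
    have hv' : v.ord f ≠ 0 := hv
    have : 0 < v.ord f ∨ 0 < v.ord f⁻¹ := by
      rw [Place.ord_inv]
      omega
    exact this

end Finiteness

/-! ### The divisor of a function -/

section DivisorOf

/-- Hypothesis bundle: residue fields finite and `F / K(y)` finite for transcendental `y`. -/
structure Hyp (K F : Type*) [Field K] [Field F] [Algebra K F] : Prop where
  fd : ∀ y : F, Transcendental K y → FiniteDimensional K⟮y⟯ F
  pole : ∀ y : F, Transcendental K y → ∃ v : Place K F, v.ord y < 0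

variable [FiniteResidues K F] (H : Hyp K F)

/-- The divisor `v ↦ ord_v f`. -/
def ordDivisor (f : F) : Divisor K F :=
  Finsupp.ofSupportFinite (fun v => v.ord f) (finite_support_ord H.fd f)

@[simp]
theorem ordDivisor_apply (f : F) (v : Place K F) : ordDivisor H f v = v.ord f := rfl

theorem ordDivisor_inv (f : F) : ordDivisor H f⁻¹ = -ordDivisor H f := by
  ext v
  simp [Place.ord_inv]

/-- The pole divisor `(f)_∞`. -/
def poleDivisor (f : F) : Divisor K F := (-ordDivisor H f) ⊔ 0

/-- The zero divisor `(f)_0`. -/
def zeroDivisor (f : F) : Divisor K F := (ordDivisor H f) ⊔ 0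

theorem poleDivisor_apply (f : F) (v : Place K F) : poleDivisor H f v = max (-(v.ord f)) 0 := by
  simp [poleDivisor, Finsupp.sup_apply]

theorem zeroDivisor_apply (f : F) (v : Place K F) : zeroDivisor H f v = max (v.ord f) 0 := by
  simp [zeroDivisor, Finsupp.sup_apply]

theorem poleDivisor_nonneg (f : F) : 0 ≤ poleDivisor H f := le_sup_right

theorem zeroDivisor_nonneg (f : F) : 0 ≤ zeroDivisor H f := le_sup_right

theorem zeroDivisor_inv (f : F) : zeroDivisor H f⁻¹ = poleDivisor H f := by
  rw [zeroDivisor, poleDivisor, ordDivisor_inv]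

theorem poleDivisor_inv (f : F) : poleDivisor H f⁻¹ = zeroDivisor H f := by
  rw [zeroDivisor, poleDivisor, ordDivisor_inv, neg_neg]

theorem ordDivisor_eq_sub (f : F) : ordDivisor H f = zeroDivisor H f - poleDivisor H f := by
  ext v
  rw [Finsupp.sub_apply, zeroDivisor_apply, poleDivisor_apply, ordDivisor_apply]
  rcases le_total (v.ord f) 0 with h | h
  · rw [max_eq_right h, max_eq_left (by omega)]
    omega
  · rw [max_eq_left h, max_eq_right (by omega)]
    omega

theorem vle_poleDivisor (f : F) (v : Place K F) : Vle v f (poleDivisor H f v) := by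
  rw [Vle.iff_ord, poleDivisor_apply]
  right
  rcases le_total (-(v.ord f)) 0 with h | h
  · rw [max_eq_right h]; omega
  · rw [max_eq_left h]; omega

theorem mem_riemannRochSpace_poleDivisor (f : F) : f ∈ riemannRochSpace (poleDivisor H f) :=
  fun v => vle_poleDivisor H f v

include H in
/-- A common pole bound for a finite family. -/
theorem exists_common_bound {n : ℕ} (u : Fin n → F) :
    ∃ C : Divisor K F, 0 ≤ C ∧ ∀ j, u j ∈ riemannRochSpace C := by
  refine ⟨∑ j, poleDivisor H (u j), Finset.sum_nonneg fun j _ => poleDivisor_nonneg H (u j),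
    fun j => ?_⟩
  refine riemannRochSpace_mono ?_ (mem_riemannRochSpace_poleDivisor H (u j))
  exact Finset.single_le_sum (f := fun j => poleDivisor H (u j))
    (fun i _ => poleDivisor_nonneg H (u i)) (Finset.mem_univ j)

end DivisorOf

/-! ### `L(0)` is finite-dimensional -/

section Main

variable [FiniteResidues K F] (H : Hyp K F)

omit [FiniteResidues K F] in
include H in
/-- Elements without poles are algebraic over `K`. -/
theorem isAlgebraic_of_mem_L_zero {f : F} (hf : f ∈ riemannRochSpace (0 : Divisor K F)) :
    IsAlgebraic K f := by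
  by_contra htr
  obtain ⟨v, hv⟩ := H.pole f htr
  rw [mem_riemannRochSpace_iff] at hf
  rcases hf v with h | h
  · subst h
    simp at hv
  · simp only [Finsupp.coe_zero, Pi.zero_apply, neg_zero] at h
    omega

include H in
theorem finite_L_zero (v₀ : Place K F) :
    Module.Finite K (riemannRochSpace (0 : Divisor K F)) := by
  refine Module.Finite.of_injective (evalMap 0 v₀) ?_
  rw [← LinearMap.ker_eq_bot, LinearMap.ker_eq_bot']
  intro f hf
  rw [evalMap_eq_zero_iff] at hf
  by_contra hf0
  have hf0' : (f : F) ≠ 0 := fun h => hf0 (Subtype.ext h)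
  have halg := isAlgebraic_of_mem_L_zero H f.2
  have hord := ord_eq_zero_of_isAlgebraic v₀ halg hf0'
  rw [mem_riemannRochSpace_iff] at hf
  rcases hf v₀ with h | h
  · exact hf0' h
  · simp only [Finsupp.coe_sub, Finsupp.coe_zero, Pi.sub_apply, Pi.zero_apply,
      Finsupp.single_eq_same] at h
    omega

omit [FiniteResidues K F] in
theorem degree_eq_sum' (D : Divisor K F) :
    Divisor.degree D = ∑ v ∈ D.support, D v * (v.deg : ℤ) := by
  unfold Divisor.degree
  rw [Finsupp.liftAddHom_apply]
  rfl

/-! ### The counting argument -/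

include H in
/-- **Counting in `L(M (y)_∞ + C)`** (Stichtenoth 1.4.11): if the `y ^ m * u j` are linearly
independent over `K`, then the number of the `u j` is at most `deg (y)_∞`. -/
theorem card_le_degree_poleDivisor (y : F) (v₀ : Place K F) {n : ℕ} (u : Fin n → F)
    (hind : ∀ (M : ℕ) (c : ℕ → Fin n → K),
      (∑ m ∈ Finset.range M, y ^ m * ∑ j, c m j • u j) = 0 → ∀ m < M, ∀ j, c m j = 0) :
    (n : ℤ) ≤ Divisor.degree (poleDivisor H y) := by
  classical
  set B := poleDivisor H y with hBdef
  have hBnn : ∀ v, 0 ≤ B v := fun v => by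
    rw [hBdef, poleDivisor_apply]; exact le_max_right _ _
  obtain ⟨C, hC0, hC⟩ := exists_common_bound H u
  have hL0 := finite_L_zero H v₀
  have hdegB : 0 ≤ Divisor.degree B := degree_nonneg_of_nonneg (poleDivisor_nonneg H y)
  have hdegC : 0 ≤ Divisor.degree C := degree_nonneg_of_nonneg hC0
  -- the count for every `M`
  have hcount : ∀ M : ℕ, ((M + 1 : ℕ) : ℤ) * n ≤
      Module.finrank K (riemannRochSpace (0 : Divisor K F)) +
        (M * Divisor.degree B + Divisor.degree C) := by
    intro M
    set D : Divisor K F := M • B + C with hD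
    have h0D : (0 : Divisor K F) ≤ D :=
      add_nonneg (nsmul_nonneg (poleDivisor_nonneg H y) M) hC0
    obtain ⟨hfinD, hle⟩ := finite_of_le h0D
    have hmem : ∀ p : Fin (M + 1) × Fin n, y ^ (p.1 : ℕ) * u p.2 ∈ riemannRochSpace D := by
      intro p v
      show Vle v (y ^ (p.1 : ℕ) * u p.2) (D v)
      have h1 : Vle v (y ^ (p.1 : ℕ)) (((p.1 : ℕ) : ℤ) * B v) :=
        (vle_poleDivisor H y v).pow _
      have h2 : Vle v (y ^ (p.1 : ℕ)) ((M : ℤ) * B v) := by
        refine h1.mono ?_
        have : ((p.1 : ℕ) : ℤ) ≤ M := by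
          have := p.1.2
          omega
        exact mul_le_mul_of_nonneg_right this (hBnn v)
      have h3 := h2.mul (hC p.2 v)
      have hDv : D v = (M : ℤ) * B v + C v := by
        rw [hD, Finsupp.add_apply, Finsupp.smul_apply, nsmul_eq_mul]
      rw [hDv]
      exact h3
    let w : Fin (M + 1) × Fin n → riemannRochSpace D := fun p => ⟨_, hmem p⟩
    have hw : LinearIndependent K w := by
      refine LinearIndependent.of_comp (riemannRochSpace D).subtype ?_
      rw [Fintype.linearIndependent_iff]
      intro g hg p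
      set G : ℕ → Fin n → K := fun i j => if h : i < M + 1 then g (⟨i, h⟩, j) else 0 with hG
      have hGg : ∀ (i : Fin (M + 1)) j, G i j = g (i, j) := by
        intro i j
        simp only [hG, dif_pos i.2]
      have hsum : ∑ i ∈ Finset.range (M + 1), y ^ i * ∑ j, G i j • u j = 0 := by
        rw [← Fin.sum_univ_eq_sum_range (fun i => y ^ i * ∑ j, G i j • u j) (M + 1)]
        rw [← hg, Fintype.sum_prod_type]
        refine Finset.sum_congr rfl fun i _ => ?_
        rw [Finset.mul_sum]
        refine Finset.sum_congr rfl fun j _ => ?_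
        rw [hGg]
        simp only [Function.comp_apply, Submodule.subtype_apply, w, mul_smul_comm]
      have := hind (M + 1) G hsum p.1 p.1.2 p.2
      rw [hGg] at this
      exact this
    have hcard := hw.fintype_card_le_finrank
    rw [Fintype.card_prod, Fintype.card_fin, Fintype.card_fin] at hcard
    have hdegD : Divisor.degree D = M * Divisor.degree B + Divisor.degree C := by
      rw [hD, map_add, map_nsmul, nsmul_eq_mul]
    rw [map_zero, sub_zero, hdegD] at hle
    have : (((M + 1) * n : ℕ) : ℤ) ≤ Module.finrank K (riemannRochSpace D) := by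
      exact_mod_cast hcard
    push_cast at this ⊢
    linarith
  -- conclude
  by_contra hlt
  have hlt' := not_le.mp hlt
  set b := Divisor.degree B with hb
  set c := Divisor.degree C with hc
  set l0 : ℤ := (Module.finrank K (riemannRochSpace (0 : Divisor K F)) : ℤ) with hl0
  have hl0nn : 0 ≤ l0 := by positivity
  have hM := hcount (l0 + c).toNat
  have hMcast : (((l0 + c).toNat : ℕ) : ℤ) = l0 + c := Int.toNat_of_nonneg (by omega)
  push_cast at hM
  rw [hMcast] at hM
  have hn1 : b + 1 ≤ (n : ℤ) := hlt'
  nlinarith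

/-! ### `deg (y)_0 ≤ deg (y)_∞` -/

include H in
theorem degree_zeroDivisor_le (y : F) (hy0 : y ≠ 0) (v₀ : Place K F) :
    Divisor.degree (zeroDivisor H y) ≤ Divisor.degree (poleDivisor H y) := by
  classical
  set Z := zeroDivisor H y with hZdef
  have hZnn : ∀ v, 0 ≤ Z v := fun v => by
    rw [hZdef, zeroDivisor_apply]; exact le_max_right _ _
  let e : Place K F → ℕ := fun v => (Z v).toNat
  have he : ∀ v ∈ Z.support, Vle v y (-(e v : ℤ)) := by
    intro v hv
    rw [Vle.iff_ord]
    right
    rw [neg_neg]
    show ((Z v).toNat : ℤ) ≤ v.ord y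
    rw [Int.toNat_of_nonneg (hZnn v)]
    rw [Finsupp.mem_support_iff] at hv
    rw [hZdef, zeroDivisor_apply] at hv ⊢
    rcases le_total (v.ord y) 0 with h | h
    · exact absurd (max_eq_right h) hv
    · rw [max_eq_left h]
  set n : ℕ := ∑ v ∈ Z.support, e v * v.deg with hn
  have hdegZ : Divisor.degree Z = (n : ℤ) := by
    rw [degree_eq_sum', hn]
    push_cast
    refine Finset.sum_congr rfl fun v _ => ?_
    show Z v * (v.deg : ℤ) = ((Z v).toNat : ℤ) * (v.deg : ℤ)
    rw [Int.toNat_of_nonneg (hZnn v)]
  obtain ⟨u, -, hind⟩ := exists_indep_family weakApprox' Z.support (fun v _ => inferInstance) e y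
    hy0 he
  rw [hdegZ]
  exact card_le_degree_poleDivisor H y v₀ u hind

/-! ### Principal divisors have degree zero -/

include H in
theorem degree_ordDivisor (f : F) (hf : f ≠ 0) : Divisor.degree (ordDivisor H f) = 0 := by
  by_cases halg : IsAlgebraic K f
  · have : ordDivisor H f = 0 := by
      ext v
      simp [ord_eq_zero_of_isAlgebraic v halg hf]
    rw [this, map_zero]
  · obtain ⟨v₀, -⟩ := H.pole f halg
    have h1 := degree_zeroDivisor_le H f hf v₀
    have h2 := degree_zeroDivisor_le H f⁻¹ (inv_ne_zero hf) v₀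
    rw [zeroDivisor_inv, poleDivisor_inv] at h2
    rw [ordDivisor_eq_sub, map_sub]
    omega

include H in
theorem degree_zeroDivisor_eq (f : F) (hf : f ≠ 0) :
    Divisor.degree (zeroDivisor H f) = Divisor.degree (poleDivisor H f) := by
  have h := degree_ordDivisor H f hf
  rw [ordDivisor_eq_sub, map_sub] at h
  omega

include H in
/-- **`HasPrincipalDivisors` in any characteristic.** -/
theorem hasPrincipalDivisors_of_hyp : HasPrincipalDivisors K F :=
  ⟨fun f hf => ⟨ordDivisor H f, fun _ => rfl, degree_ordDivisor H f hf⟩⟩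

/-! ### `deg (y)_∞ = [F : K(y)]` -/

include H in
theorem degree_zeroDivisor_le_finrank (y : F) (hy : Transcendental K y) :
    haveI := H.fd y hy
    Divisor.degree (zeroDivisor H y) ≤ (Module.finrank K⟮y⟯ F : ℤ) := by
  classical
  have := H.fd y hy
  have hy0 : y ≠ 0 := fun h => hy (h ▸ isAlgebraic_zero)
  set Z := zeroDivisor H y with hZdef
  have hZnn : ∀ v, 0 ≤ Z v := fun v => by
    rw [hZdef, zeroDivisor_apply]; exact le_max_right _ _
  let e : Place K F → ℕ := fun v => (Z v).toNat
  have he : ∀ v ∈ Z.support, Vle v y (-(e v : ℤ)) := by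
    intro v hv
    rw [Vle.iff_ord]
    right
    rw [neg_neg]
    show ((Z v).toNat : ℤ) ≤ v.ord y
    rw [Int.toNat_of_nonneg (hZnn v)]
    rw [Finsupp.mem_support_iff] at hv
    rw [hZdef, zeroDivisor_apply] at hv ⊢
    rcases le_total (v.ord y) 0 with h | h
    · exact absurd (max_eq_right h) hv
    · rw [max_eq_left h]
  have h := sum_mul_deg_le_finrank y hy0 Z.support e he
  have hdegZ : Divisor.degree Z = ((∑ v ∈ Z.support, e v * v.deg : ℕ) : ℤ) := by
    rw [degree_eq_sum']
    push_cast
    refine Finset.sum_congr rfl fun v _ => ?_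
    show Z v * (v.deg : ℤ) = ((Z v).toNat : ℤ) * (v.deg : ℤ)
    rw [Int.toNat_of_nonneg (hZnn v)]
  rw [hdegZ]
  exact_mod_cast h

include H in
theorem finrank_le_degree_poleDivisor (y : F) (hy : Transcendental K y) :
    (Module.finrank K⟮y⟯ F : ℤ) ≤ Divisor.degree (poleDivisor H y) := by
  classical
  have := H.fd y hy
  obtain ⟨v₀, -⟩ := H.pole y hy
  set n := Module.finrank K⟮y⟯ F with hn
  let b : Module.Basis (Fin n) K⟮y⟯ F := Module.finBasis K⟮y⟯ F
  refine card_le_degree_poleDivisor H y v₀ (fun j => b j) ?_
  intro M c hrel m hm j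
  -- coefficients in `K(y)`
  set r : Fin n → K⟮y⟯ := fun j =>
    ∑ m ∈ Finset.range M, algebraMap K K⟮y⟯ (c m j) * (AdjoinSimple.gen K y) ^ m with hr
  have hrF : ∀ j, ((r j : K⟮y⟯) : F) = ∑ m ∈ Finset.range M, c m j • y ^ m := by
    intro j
    simp only [hr, AddSubmonoidClass.coe_finsetSum, MulMemClass.coe_mul,
      SubmonoidClass.coe_pow, AdjoinSimple.coe_gen, Algebra.smul_def]
    rfl
  have hsum : ∑ j, r j • b j = 0 := by
    rw [← hrel]
    simp only [IntermediateField.smul_def, smul_eq_mul, hrF, Finset.sum_mul, Finset.mul_sum]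
    rw [Finset.sum_comm]
    refine Finset.sum_congr rfl fun m _ => Finset.sum_congr rfl fun j _ => ?_
    simp only [Algebra.smul_def]
    ring
  have hr0 := (Fintype.linearIndependent_iff.mp b.linearIndependent) r hsum j
  have hpoly : Polynomial.aeval y (∑ m ∈ Finset.range M, Polynomial.monomial m (c m j)) = 0 := by
    have h := congrArg (fun x : K⟮y⟯ => (x : F)) hr0
    simp only [hrF, ZeroMemClass.coe_zero] at h
    rw [← h, map_sum]
    refine Finset.sum_congr rfl fun m _ => ?_
    rw [Polynomial.aeval_monomial, Algebra.smul_def]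
  have hzero : (∑ m ∈ Finset.range M, Polynomial.monomial m (c m j)) = 0 := by
    by_contra hne
    exact hy ⟨_, hne, hpoly⟩
  have hcoef := congrArg (fun P : Polynomial K => P.coeff m) hzero
  simp only [Polynomial.finsetSum_coeff, Polynomial.coeff_monomial, Polynomial.coeff_zero] at hcoef
  rw [Finset.sum_ite_eq' (Finset.range M) m (fun i => c i j), if_pos (Finset.mem_range.mpr hm)]
    at hcoef
  exact hcoef

include H in
/-- **`deg (y)_∞ = [F : K(y)] = deg (y)_0`** for transcendental `y`. -/
theorem degree_poleDivisor_eq_finrank (y : F) (hy : Transcendental K y) :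
    Divisor.degree (poleDivisor H y) = (Module.finrank K⟮y⟯ F : ℤ) := by
  have hy0 : y ≠ 0 := fun h => hy (h ▸ isAlgebraic_zero)
  have h1 := finrank_le_degree_poleDivisor H y hy
  have h2 := degree_zeroDivisor_le_finrank H y hy
  have h3 := degree_zeroDivisor_eq H y hy0
  omega

end Main

/-- **`HasPrincipalDivisors` in any characteristic**, unbundled hypotheses: finite residue
fields, `F / K(y)` finite for every transcendental `y`, and every transcendental `y` has a
pole. -/
theorem hasPrincipalDivisors_of [FiniteResidues K F]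
    (hfd : ∀ y : F, Transcendental K y → FiniteDimensional K⟮y⟯ F)
    (hpole : ∀ y : F, Transcendental K y → ∃ v : Place K F, v.ord y < 0) :
    HasPrincipalDivisors K F :=
  hasPrincipalDivisors_of_hyp ⟨hfd, hpole⟩

end Fermat.Agent.GJ.FF.PrincipalOf
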